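import Mathlib.GroupTheory.GroupAction.Quotient
import Mathlib.LinearAlgebra.Finsupp.LinearCombination
import Mathlib.Algebra.Algebra.Subalgebra.Basic
import Mathlib.Algebra.BigOperators.Finprod
import Mathlib.Data.Complex.Basic
import Mathlib.Tactic.Group

/-!
# The Hecke algebra of a pair as endomorphisms of the permutation module

The Hecke algebra of `(G, K)` consists of the endomorphisms of `ℂ[G ⧸ K]` commuting with
translations.  An element is determined by the image of the base point, a `K`-invariant finitely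
supported function, and every such function occurs.  An anti-involution of `G` preserving `K` and
every double coset makes the algebra commutative.
-/

set_option autoImplicit false
set_option linter.unusedSectionVars false

noncomputable section

open Function

namespace FA.Satake

variable {G : Type*} [Group G] (K : Subgroup G)

/-- The permutation module of the cosets. -/
abbrev CosetModule : Type _ := (G ⧸ K) →₀ ℂ

/-- Translation by a group element. -/
def shift (g : G) : Module.End ℂ (CosetModule K) :=
  Finsupp.lmapDomain ℂ ℂ fun x : G ⧸ K => g • x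

/-- **The Hecke algebra**: endomorphisms commuting with all translations. -/
def hecke : Subalgebra ℂ (Module.End ℂ (CosetModule K)) :=
  Subalgebra.centralizer ℂ (Set.range (shift K))

variable {K}

theorem mem_hecke_iff (A : Module.End ℂ (CosetModule K)) :
    A ∈ hecke K ↔ ∀ g f, A (shift K g f) = shift K g (A f) := by
  rw [hecke, Subalgebra.mem_centralizer_iff]
  exact ⟨fun h g f => (LinearMap.congr_fun (h _ ⟨g, rfl⟩) f).symm, fun h _ ⟨g, hg⟩ =>
    hg ▸ LinearMap.ext fun f => (h g f).symm⟩

theorem shift_apply (g : G) (f : CosetModule K) (x : G ⧸ K) :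
    shift K g f x = f (g⁻¹ • x) := by
  conv_lhs => rw [← smul_inv_smul g x]
  exact Finsupp.mapDomain_apply (MulAction.injective g) f (g⁻¹ • x)

theorem shift_single (g h : G) :
    shift K g (Finsupp.single (QuotientGroup.mk h : G ⧸ K) 1) =
      Finsupp.single (QuotientGroup.mk (g * h)) 1 :=
  Finsupp.mapDomain_single

/-- The image of the base point. -/
def kernelFn (A : hecke K) : CosetModule K :=
  (A : Module.End ℂ (CosetModule K)) (Finsupp.single (QuotientGroup.mk (1 : G)) 1)

theorem apply_single (A : hecke K) (g : G) (x : G ⧸ K) :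
    (A : Module.End ℂ (CosetModule K)) (Finsupp.single (QuotientGroup.mk g) 1) x =
      kernelFn A (g⁻¹ • x) := by
  rw [← shift_apply g (kernelFn A) x, kernelFn, ← (mem_hecke_iff _).1 A.2, shift_single, mul_one]

theorem kernelFn_smul (A : hecke K) {k : G} (hk : k ∈ K) (x : G ⧸ K) :
    kernelFn A (k • x) = kernelFn A x := by
  have h := apply_single A k⁻¹ x
  rw [inv_inv] at h
  rw [← h, show (QuotientGroup.mk k⁻¹ : G ⧸ K) = QuotientGroup.mk 1 from
    QuotientGroup.eq.2 (by simpa using hk)]
  rfl

theorem kernelFn_mk_mul (A : hecke K) {a b : G} (ha : a ∈ K) (hb : b ∈ K) (g : G) :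
    kernelFn A (QuotientGroup.mk (a * g * b)) = kernelFn A (QuotientGroup.mk g) := by
  rw [QuotientGroup.mk_mul_of_mem _ hb]
  exact kernelFn_smul A ha (QuotientGroup.mk g)

theorem kernelFn_injective : Injective (kernelFn : hecke K → CosetModule K) := fun A B h => by
  refine Subtype.ext (Finsupp.lhom_ext fun x c => ?_)
  induction x using QuotientGroup.induction_on with
  | _ g =>
    rw [← mul_one c, ← smul_eq_mul, ← Finsupp.smul_single, map_smul, map_smul]
    refine congrArg (c • ·) (Finsupp.ext fun y => ?_)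
    rw [apply_single, apply_single, h]

theorem kernelFn_one : kernelFn (1 : hecke K) = Finsupp.single (QuotientGroup.mk (1 : G)) 1 := rfl

theorem kernelFn_add (A B : hecke K) : kernelFn (A + B) = kernelFn A + kernelFn B := rfl

theorem kernelFn_smul_left (c : ℂ) (A : hecke K) : kernelFn (c • A) = c • kernelFn A := rfl

/-- The image of the base point as a linear map. -/
def kernelLM : hecke K →ₗ[ℂ] CosetModule K where
  toFun := kernelFn
  map_add' := kernelFn_add
  map_smul' := kernelFn_smul_left

theorem kernelFn_sum {ι : Type*} (s : Finset ι) (A : ι → hecke K) :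
    kernelFn (∑ i ∈ s, A i) = ∑ i ∈ s, kernelFn (A i) :=
  map_sum kernelLM A s

theorem kernelFn_mul (A B : hecke K) (x : G ⧸ K) :
    kernelFn (A * B) x = ∑ᶠ y : G ⧸ K, kernelFn B y * kernelFn A (y.out⁻¹ • x) := by
  have h1 : kernelFn (A * B) = ∑ y ∈ (kernelFn B).support,
      kernelFn B y • (A : Module.End ℂ (CosetModule K)) (Finsupp.single y 1) := by
    show (A : Module.End ℂ (CosetModule K)) (kernelFn B) = _
    conv_lhs => rw [← (kernelFn B).sum_single, Finsupp.sum, map_sum]
    refine Finset.sum_congr rfl fun y _ => ?_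
    rw [← map_smul, Finsupp.smul_single, smul_eq_mul, mul_one]
  rw [h1, Finsupp.coe_finsetSum, Finset.sum_apply,
    finsum_eq_finsetSum_of_support_subset (s := (kernelFn B).support) _ fun y hy => by
      rw [Finset.mem_coe, Finsupp.mem_support_iff]
      exact left_ne_zero_of_mul hy]
  refine Finset.sum_congr rfl fun y _ => ?_
  rw [Finsupp.smul_apply, smul_eq_mul, ← apply_single A y.out x, QuotientGroup.out_eq']

/-- The operator attached to a `K`-invariant finitely supported function. -/
def ofInvariant (f : CosetModule K) (hf : ∀ k ∈ K, ∀ x, f (k • x) = f x) : hecke K :=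
  ⟨Finsupp.linearCombination ℂ fun y : G ⧸ K => shift K y.out f, by
    rw [mem_hecke_iff]
    intro g φ
    refine LinearMap.congr_fun
      (f := (Finsupp.linearCombination ℂ fun y : G ⧸ K => shift K y.out f) ∘ₗ shift K g)
      (g := shift K g ∘ₗ Finsupp.linearCombination ℂ fun y : G ⧸ K => shift K y.out f)
      (Finsupp.lhom_ext fun y c => ?_) φ
    simp only [LinearMap.comp_apply, shift, Finsupp.lmapDomain_apply, Finsupp.mapDomain_single,
      Finsupp.linearCombination_single, map_smul]
    refine congrArg (c • ·) ?_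
    refine Finsupp.ext fun x => ?_
    have hk : (g • y).out⁻¹ * (g * y.out) ∈ K := QuotientGroup.eq.1 (by
      rw [QuotientGroup.out_eq', ← smul_eq_mul, MulAction.Quotient.coe_smul_out])
    show shift K (g • y).out f x = shift K g (shift K y.out f) x
    rw [shift_apply, shift_apply, shift_apply, ← mul_smul, ← hf _ hk (( y.out⁻¹ * g⁻¹) • x),
      ← mul_smul]
    simp [mul_assoc]⟩

theorem kernelFn_ofInvariant (f : CosetModule K) (hf : ∀ k ∈ K, ∀ x, f (k • x) = f x) :
    kernelFn (ofInvariant f hf) = f := by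
  ext x
  show (Finsupp.linearCombination ℂ fun y : G ⧸ K => shift K y.out f)
    (Finsupp.single (QuotientGroup.mk (1 : G)) 1) x = f x
  rw [Finsupp.linearCombination_single, one_smul, shift_apply, hf]
  exact K.inv_mem (by
    have h : (1 : G)⁻¹ * (QuotientGroup.mk (1 : G) : G ⧸ K).out ∈ K :=
      QuotientGroup.eq.1 (QuotientGroup.out_eq' _).symm
    simpa using h)

/-- **Gelfand's criterion.** An anti-involution preserving `K` and its double cosets makes the Hecke
algebra commutative. -/
theorem hecke_mul_comm {θ : G → G} (hmul : ∀ g h, θ (g * h) = θ h * θ g)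
    (hinv : Involutive θ) (hK : ∀ k ∈ K, θ k ∈ K)
    (hdc : ∀ g, ∃ a ∈ K, ∃ b ∈ K, θ g = a * g * b) (A B : hecke K) : A * B = B * A := by
  refine kernelFn_injective (Finsupp.ext fun x => ?_)
  induction x using QuotientGroup.induction_on with
  | _ g =>
  have hθ1 : θ 1 = 1 := by
    have h := hmul 1 1
    rwa [one_mul, left_eq_mul] at h
  have hθinv : ∀ u, θ u⁻¹ = (θ u)⁻¹ := fun u =>
    eq_inv_of_mul_eq_one_left (by rw [← hmul, mul_inv_cancel, hθ1])
  have hker : ∀ (C : hecke K) u, kernelFn C (QuotientGroup.mk (θ u)) =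
      kernelFn C (QuotientGroup.mk u) := fun C u => by
    obtain ⟨a, ha, b, hb, e⟩ := hdc u
    rw [e, kernelFn_mk_mul C ha hb]
  have hout : ∀ (u : G), ∃ k ∈ K, (QuotientGroup.mk u : G ⧸ K).out = u * k := fun u => by
    have h : u⁻¹ * (QuotientGroup.mk u : G ⧸ K).out ∈ K :=
      QuotientGroup.eq.1 (QuotientGroup.out_eq' _).symm
    exact ⟨_, h, (mul_inv_cancel_left u _).symm⟩
  let Ψ : G ⧸ K ≃ G ⧸ K :=
    { toFun := fun y => QuotientGroup.mk (g * (θ y.out)⁻¹)
      invFun := fun z => QuotientGroup.mk (θ (z.out⁻¹ * g))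
      left_inv := fun y => by
        obtain ⟨k, hk, e⟩ := hout (g * (θ y.out)⁻¹)
        dsimp only
        rw [e, show (g * (θ y.out)⁻¹ * k)⁻¹ * g = k⁻¹ * θ y.out by group, hmul, hinv,
          QuotientGroup.mk_mul_of_mem _ (hK _ (K.inv_mem hk)), QuotientGroup.out_eq']
      right_inv := fun z => by
        obtain ⟨k, hk, e⟩ := hout (θ (z.out⁻¹ * g))
        dsimp only
        rw [e, hmul, hinv, show g * (θ k * (z.out⁻¹ * g))⁻¹ = z.out * (θ k)⁻¹ by group,
          QuotientGroup.mk_mul_of_mem _ (K.inv_mem (hK _ hk)), QuotientGroup.out_eq'] }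
  obtain ⟨a, ha, b, hb, e⟩ := hdc g
  rw [← hker (A * B) g, kernelFn_mul, kernelFn_mul,
    ← finsum_comp_equiv Ψ (f := fun z => kernelFn A z * kernelFn B
      (z.out⁻¹ • (QuotientGroup.mk g : G ⧸ K)))]
  refine finsum_congr fun y => ?_
  obtain ⟨k, hk, e'⟩ := hout (g * (θ y.out)⁻¹)
  show _ = kernelFn A (QuotientGroup.mk (g * (θ y.out)⁻¹)) * kernelFn B
    ((QuotientGroup.mk (g * (θ y.out)⁻¹) : G ⧸ K).out⁻¹ • (QuotientGroup.mk g : G ⧸ K))
  rw [MulAction.Quotient.smul_mk, MulAction.Quotient.smul_mk, smul_eq_mul, smul_eq_mul, e',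
    show (g * (θ y.out)⁻¹ * k)⁻¹ * g = k⁻¹ * θ y.out * 1 by group,
    kernelFn_mk_mul B (K.inv_mem hk) K.one_mem, hker B, QuotientGroup.out_eq',
    ← hker A (y.out⁻¹ * θ g), hmul, hinv, hθinv, mul_comm]

end FA.Satake

end
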