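import Fermat.Agent.GelfandPairs.Cartan
import Fermat.Agent.Subspace.Compound
import Mathlib.Analysis.Normed.Group.Ultra
import Mathlib.Topology.Algebra.OpenSubgroup
import Mathlib.Data.Fin.Tuple.Sort

/-!
# The exponents of a matrix over `ℚ_p`

The largest absolute value of a minor of order `k` is unchanged by `GL_n (ℤ_p)` on either side and is
submultiplicative.  On a diagonal matrix with increasing exponents it sees the sum of the first `k`
exponents, so the exponents of the Cartan decomposition are unique, and those of a product dominate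
the sums of the exponents of the factors.
-/

set_option autoImplicit false
set_option linter.unusedSectionVars false
set_option linter.style.haveILetI false

noncomputable section

open Matrix
open FA.Subspace FA.GelfandPairs
open scoped NNReal

namespace FA.Satake

variable (p : ℕ) [Fact p.Prime] (n : ℕ)

/-- The general linear group over `ℚ_p`. -/
abbrev PGL' : Type := Matrix.GeneralLinearGroup (Fin n) ℚ_[p]

variable {n}

/-- The sum of the first `k` entries. -/
def pSum (e : Fin n → ℤ) (k : ℕ) : ℤ :=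
  ∑ i ∈ Finset.range k, if h : i < n then e ⟨i, h⟩ else 0

theorem pSum_zero (e : Fin n → ℤ) : pSum e 0 = 0 := rfl

theorem pSum_succ (e : Fin n → ℤ) (i : Fin n) : pSum e (i + 1) = pSum e i + e i := by
  rw [pSum, Finset.sum_range_succ, dif_pos i.2]
  rfl

theorem pSum_eq_sum (e : Fin n → ℤ) {k : ℕ} (hk : k ≤ n) :
    pSum e k = ∑ j : Fin k, e (Fin.castLE hk j) := by
  rw [pSum, ← Fin.sum_univ_eq_sum_range]
  exact Finset.sum_congr rfl fun j _ => dif_pos (j.2.trans_le hk)

theorem pSum_add (e f : Fin n → ℤ) (k : ℕ) : pSum (e + f) k = pSum e k + pSum f k := by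
  rw [pSum, pSum, pSum, ← Finset.sum_add_distrib]
  refine Finset.sum_congr rfl fun i _ => ?_
  split <;> simp

theorem ext_of_pSum {e f : Fin n → ℤ} (h : ∀ k ≤ n, pSum e k = pSum f k) : e = f := funext fun i => by
  have h1 := h (i + 1) i.2
  rw [pSum_succ, pSum_succ, h i i.2.le] at h1
  exact add_left_cancel h1

/-- The increasing exponent vectors. -/
def dominant (n : ℕ) : AddSubmonoid (Fin n → ℤ) where
  carrier := {e | Monotone e}
  add_mem' := fun he hf => he.add hf
  zero_mem' := monotone_const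

/-- The diagonal matrix with entries `p ^ e i`. -/
def ppow (e : Fin n → ℤ) : PGL' p n :=
  diagGL fun i => Units.mk0 ((p : ℚ_[p]) ^ e i)
    (zpow_ne_zero _ (by exact_mod_cast (Fact.out : p.Prime).ne_zero))

theorem val_ppow (e : Fin n → ℤ) :
    (ppow p e : Matrix (Fin n) (Fin n) ℚ_[p]) = diagonal fun i => (p : ℚ_[p]) ^ e i := rfl

theorem ppow_add (e f : Fin n → ℤ) : ppow p (e + f) = ppow p e * ppow p f := by
  refine Units.ext ?_
  rw [Units.val_mul, val_ppow, val_ppow, val_ppow, diagonal_mul_diagonal]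
  exact congrArg diagonal (funext fun i => zpow_add₀ (by
    exact_mod_cast (Fact.out : p.Prime).ne_zero) _ _)

theorem ppow_zero : ppow p (0 : Fin n → ℤ) = 1 := by
  refine Units.ext ?_
  rw [val_ppow, Units.val_one]
  simp

/-- `g` has exponents `e`. -/
def HasType (g : PGL' p n) (e : Fin n → ℤ) : Prop :=
  ∃ a ∈ integralGL p n, ∃ b ∈ integralGL p n, g = a * ppow p e * b

/-- Indexing of the minors of order `k`. -/
def minorIndex (n k : ℕ) : Fin (Nat.card (Fin k ↪o Fin n)) ≃ (Fin k ↪o Fin n) :=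
  haveI : Finite (Fin k ↪o Fin n) := Finite.of_injective _ DFunLike.coe_injective
  (Finite.equivFin _).symm

/-- The largest absolute value of an entry. -/
def maxEntry {ι : Type*} [Fintype ι] (M : Matrix ι ι ℚ_[p]) : ℝ≥0 :=
  Finset.univ.sup fun q : ι × ι => ‖M q.1 q.2‖₊

theorem le_maxEntry {ι : Type*} [Fintype ι] (M : Matrix ι ι ℚ_[p]) (i j : ι) :
    ‖M i j‖₊ ≤ maxEntry p M :=
  Finset.le_sup (f := fun q : ι × ι => ‖M q.1 q.2‖₊) (Finset.mem_univ (i, j))

theorem maxEntry_le {ι : Type*} [Fintype ι] {M : Matrix ι ι ℚ_[p]} {c : ℝ≥0}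
    (h : ∀ i j, ‖M i j‖₊ ≤ c) : maxEntry p M ≤ c :=
  Finset.sup_le fun q _ => h q.1 q.2

theorem maxEntry_mul {ι : Type*} [Fintype ι] (M N : Matrix ι ι ℚ_[p]) :
    maxEntry p (M * N) ≤ maxEntry p M * maxEntry p N := by
  refine maxEntry_le p fun i j => ?_
  rw [Matrix.mul_apply]
  refine IsUltrametricDist.nnnorm_sum_le_of_forall_le fun l _ => ?_
  rw [nnnorm_mul]
  exact mul_le_mul' (le_maxEntry p M _ _) (le_maxEntry p N _ _)

/-- The largest absolute value of a minor of order `k`. -/
def minorNorm (k : ℕ) (A : Matrix (Fin n) (Fin n) ℚ_[p]) : ℝ≥0 :=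
  maxEntry p (compound (minorIndex n k) A)

theorem le_minorNorm (k : ℕ) (A : Matrix (Fin n) (Fin n) ℚ_[p])
    (σ τ : Fin (Nat.card (Fin k ↪o Fin n))) :
    ‖compound (minorIndex n k) A σ τ‖₊ ≤ minorNorm p k A :=
  le_maxEntry p (compound (minorIndex n k) A) σ τ

theorem minorNorm_mul (k : ℕ) (A B : Matrix (Fin n) (Fin n) ℚ_[p]) :
    minorNorm p k (A * B) ≤ minorNorm p k A * minorNorm p k B := by
  rw [minorNorm, compound_mul]
  exact maxEntry_mul p _ _

theorem minorNorm_integral {k : ℕ} {a : PGL' p n} (ha : a ∈ integralGL p n) :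
    minorNorm p k (a : Matrix (Fin n) (Fin n) ℚ_[p]) ≤ 1 := by
  obtain ⟨u, rfl⟩ := ha
  refine maxEntry_le p fun i j => ?_
  have h : compound (minorIndex n k) ((PadicInt.Coe.ringHom (p := p)).mapMatrix u.val) i j =
      PadicInt.Coe.ringHom (compound (minorIndex n k) u.val i j) := by
    simp only [compound, Matrix.of_apply, map_wedge]
    rfl
  show ‖compound (minorIndex n k) ((PadicInt.Coe.ringHom (p := p)).mapMatrix u.val) i j‖₊ ≤ 1
  rw [h]
  exact (compound (minorIndex n k) u.val i j).2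

theorem minorNorm_mul_integral {k : ℕ} {a b : PGL' p n} (ha : a ∈ integralGL p n)
    (hb : b ∈ integralGL p n) (g : PGL' p n) :
    minorNorm p k ((a * g * b : PGL' p n) : Matrix (Fin n) (Fin n) ℚ_[p]) =
      minorNorm p k (g : Matrix (Fin n) (Fin n) ℚ_[p]) := by
  have key : ∀ {a b : PGL' p n}, a ∈ integralGL p n → b ∈ integralGL p n → ∀ g : PGL' p n,
      minorNorm p k ((a * g * b : PGL' p n) : Matrix (Fin n) (Fin n) ℚ_[p]) ≤
        minorNorm p k (g : Matrix (Fin n) (Fin n) ℚ_[p]) := fun {a b} ha hb g => by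
    rw [Units.val_mul, Units.val_mul]
    refine (minorNorm_mul p k _ _).trans ((mul_le_of_le_one_right' (minorNorm_integral p hb)).trans
      ((minorNorm_mul p k _ _).trans (mul_le_of_le_one_left' (minorNorm_integral p ha))))
  refine le_antisymm (key ha hb g) ?_
  have h := key (inv_mem ha) (inv_mem hb) (a * g * b)
  rwa [show a⁻¹ * (a * g * b) * b⁻¹ = g by group] at h

theorem one_lt_p : (1 : ℝ) < p := by exact_mod_cast (Fact.out : p.Prime).one_lt

theorem le_apply_of_strictMono {k : ℕ} {f : Fin k → Fin n} (hf : StrictMono f) (hk : k ≤ n)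
    (j : Fin k) : Fin.castLE hk j ≤ f j := by
  obtain ⟨j, hj⟩ := j
  refine Fin.le_def.2 ?_
  show j ≤ ((f ⟨j, hj⟩ : Fin n) : ℕ)
  induction j with
  | zero => exact Nat.zero_le _
  | succ j ih =>
    have h2 : f ⟨j, j.lt_succ_self.trans hj⟩ < f ⟨j + 1, hj⟩ := hf (Fin.mk_lt_mk.2 j.lt_succ_self)
    exact Nat.succ_le_of_lt (lt_of_le_of_lt (ih _) h2)

/-- The minors of a diagonal matrix. -/
theorem minorNorm_ppow {k : ℕ} (hk : k ≤ n) {e : Fin n → ℤ} (he : Monotone e) :
    (minorNorm p k (ppow p e : Matrix (Fin n) (Fin n) ℚ_[p]) : ℝ) = (p : ℝ) ^ (-pSum e k) := by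
  set ι := minorIndex n k
  have hsame : ∀ σ, (‖compound ι (ppow p e : Matrix (Fin n) (Fin n) ℚ_[p]) σ σ‖₊ : ℝ) =
      (p : ℝ) ^ (-∑ j, e (ι σ j)) := fun σ => by
    have h : compound ι (ppow p e : Matrix (Fin n) (Fin n) ℚ_[p]) σ σ =
        (p : ℚ_[p]) ^ (∑ j, e (ι σ j)) := by
      rw [compound, Matrix.of_apply, wedge, val_ppow]
      have hd : (Matrix.of fun i j => diagonal (fun i => (p : ℚ_[p]) ^ e i) (ι σ j) (ι σ i)) =
          diagonal fun i => (p : ℚ_[p]) ^ e (ι σ i) := by
        ext i j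
        rw [Matrix.of_apply]
        rcases eq_or_ne i j with rfl | hij
        · rw [diagonal_apply_eq, diagonal_apply_eq]
        · rw [diagonal_apply_ne _ ((ι σ).injective.ne hij.symm), diagonal_apply_ne _ hij]
      rw [hd, det_diagonal]
      have hp : (p : ℚ_[p]) ≠ 0 := by exact_mod_cast (Fact.out : p.Prime).ne_zero
      induction (Finset.univ : Finset (Fin k)) using Finset.induction with
      | empty => simp
      | insert x s hx ih => rw [Finset.prod_insert hx, Finset.sum_insert hx, zpow_add₀ hp, ih]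
    rw [coe_nnnorm, h, Padic.norm_p_zpow]
  have hdiff : ∀ σ τ, σ ≠ τ → compound ι (ppow p e : Matrix (Fin n) (Fin n) ℚ_[p]) σ τ = 0 :=
    fun σ τ hne => by
    rw [compound, Matrix.of_apply, wedge, val_ppow]
    obtain ⟨j, hj⟩ : ∃ j, ∀ i, ι τ i ≠ ι σ j := by
      by_contra hall
      push Not at hall
      refine hne (ι.injective (DFunLike.coe_injective ?_))
      refine (Finset.orderEmbOfFin_unique' (s := Finset.univ.image (ι τ))
        (by rw [Finset.card_image_of_injective _ (ι τ).injective, Finset.card_fin]) fun j => ?_).trans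
        (Finset.orderEmbOfFin_unique' _ fun j => Finset.mem_image_of_mem _ (Finset.mem_univ j)).symm
        |> congrArg DFunLike.coe
      obtain ⟨i, hi⟩ := hall j
      exact hi ▸ Finset.mem_image_of_mem _ (Finset.mem_univ i)
    exact det_eq_zero_of_column_eq_zero j fun i => by
      rw [Matrix.of_apply, diagonal_apply_ne _ (hj i).symm]
  apply le_antisymm
  · rw [← Real.coe_toNNReal ((p : ℝ) ^ (-pSum e k)) (zpow_nonneg (Nat.cast_nonneg p) _),
      NNReal.coe_le_coe]
    refine maxEntry_le p fun i j => ?_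
    rcases eq_or_ne i j with h | h
    · rw [← h, ← NNReal.coe_le_coe, hsame, Real.coe_toNNReal _ (zpow_nonneg (Nat.cast_nonneg p) _)]
      refine zpow_le_zpow_right₀ (one_lt_p p).le (neg_le_neg ?_)
      rw [pSum_eq_sum e hk]
      exact Finset.sum_le_sum fun j _ => he (le_apply_of_strictMono (ι i).strictMono hk _)
    · rw [hdiff _ _ h, nnnorm_zero]
      exact zero_le
  · have h := NNReal.coe_le_coe.2 (le_minorNorm p k (ppow p e : Matrix (Fin n) (Fin n) ℚ_[p])
      (ι.symm (Fin.castLEOrderEmb hk)) (ι.symm (Fin.castLEOrderEmb hk)))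
    rw [hsame, Equiv.apply_symm_apply] at h
    rw [pSum_eq_sum e hk]
    exact h

variable {p}

theorem HasType.minorNorm_eq {g : PGL' p n} {e : Fin n → ℤ} (h : HasType p g e) (he : Monotone e)
    {k : ℕ} (hk : k ≤ n) :
    (minorNorm p k (g : Matrix (Fin n) (Fin n) ℚ_[p]) : ℝ) = (p : ℝ) ^ (-pSum e k) := by
  obtain ⟨a, ha, b, hb, rfl⟩ := h
  rw [minorNorm_mul_integral p ha hb, minorNorm_ppow p hk he]

/-- **The exponents are unique.** -/
theorem HasType.unique {g : PGL' p n} {e f : Fin n → ℤ} (he : HasType p g e) (hf : HasType p g f)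
    (hme : Monotone e) (hmf : Monotone f) : e = f :=
  ext_of_pSum fun k hk => neg_injective ((zpow_right_strictMono₀ (one_lt_p p)).injective
    ((he.minorNorm_eq hme hk).symm.trans (hf.minorNorm_eq hmf hk)))

theorem norm_det_integral {a : PGL' p n} (ha : a ∈ integralGL p n) :
    ‖(a : Matrix (Fin n) (Fin n) ℚ_[p]).det‖ = 1 := by
  obtain ⟨u, rfl⟩ := ha
  show ‖((PadicInt.Coe.ringHom (p := p)).mapMatrix u.val).det‖ = 1
  rw [← RingHom.map_det]
  exact PadicInt.isUnit_iff.1 ((Matrix.isUnit_iff_isUnit_det _).1 u.isUnit)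

theorem HasType.norm_det {g : PGL' p n} {e : Fin n → ℤ} (h : HasType p g e) :
    ‖(g : Matrix (Fin n) (Fin n) ℚ_[p]).det‖ = (p : ℝ) ^ (-pSum e n) := by
  obtain ⟨a, ha, b, hb, rfl⟩ := h
  rw [Units.val_mul, Units.val_mul, det_mul, det_mul, norm_mul, norm_mul, norm_det_integral ha,
    norm_det_integral hb, one_mul, mul_one, val_ppow, det_diagonal, norm_prod, pSum_eq_sum e le_rfl]
  have hp : (p : ℝ) ≠ 0 := (zero_lt_one.trans (one_lt_p p)).ne'
  simp only [Padic.norm_p_zpow, Fin.castLE_rfl, id_eq]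
  induction (Finset.univ : Finset (Fin n)) using Finset.induction with
  | empty => simp
  | insert x s hx ih => rw [Finset.prod_insert hx, Finset.sum_insert hx, neg_add, zpow_add₀ hp, ih]

/-- **Dominance.** The exponents of a product dominate the sums of the exponents. -/
theorem HasType.mul_le {g h : PGL' p n} {e f c : Fin n → ℤ} (he : HasType p g e) (hf : HasType p h f)
    (hc : HasType p (g * h) c) (hme : Monotone e) (hmf : Monotone f) (hmc : Monotone c) :
    (∀ k ≤ n, pSum e k + pSum f k ≤ pSum c k) ∧ pSum e n + pSum f n = pSum c n := by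
  have hp : (p : ℝ) ≠ 0 := (zero_lt_one.trans (one_lt_p p)).ne'
  refine ⟨fun k hk => ?_, ?_⟩
  · have h := NNReal.coe_le_coe.2 (minorNorm_mul p k (g : Matrix (Fin n) (Fin n) ℚ_[p]) h)
    rw [← Units.val_mul, NNReal.coe_mul, he.minorNorm_eq hme hk, hf.minorNorm_eq hmf hk,
      hc.minorNorm_eq hmc hk, ← zpow_add₀ hp] at h
    have := (zpow_le_zpow_iff_right₀ (one_lt_p p)).1 h
    linarith
  · have h := hc.norm_det
    rw [Units.val_mul, det_mul, norm_mul, he.norm_det, hf.norm_det, ← zpow_add₀ hp] at h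
    have := (zpow_right_strictMono₀ (one_lt_p p)).injective h
    linarith

variable (p)

/-- A permutation matrix. -/
def permGL (σ : Equiv.Perm (Fin n)) : PGL' p n where
  val := (1 : Matrix (Fin n) (Fin n) ℚ_[p]).submatrix σ id
  inv := (1 : Matrix (Fin n) (Fin n) ℚ_[p]).submatrix id σ
  val_inv := by
    rw [← submatrix_mul _ _ _ id _ Function.bijective_id, mul_one]
    exact submatrix_one_equiv σ
  inv_val := by
    rw [submatrix_mul_equiv, mul_one]
    exact submatrix_id_id _

theorem permGL_mem (σ : Equiv.Perm (Fin n)) : permGL p σ ∈ integralGL p n := by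
  rw [mem_integralGL_iff]
  exact ⟨fun i j => by
      show ‖(1 : Matrix (Fin n) (Fin n) ℚ_[p]) (σ i) j‖ ≤ 1
      rw [Matrix.one_apply]; split <;> simp,
    fun i j => by
      show ‖(1 : Matrix (Fin n) (Fin n) ℚ_[p]) i (σ j)‖ ≤ 1
      rw [Matrix.one_apply]; split <;> simp⟩

/-- **Every matrix has increasing exponents.** -/
theorem exists_hasType (g : PGL' p n) : ∃ e : Fin n → ℤ, Monotone e ∧ HasType p g e := by
  obtain ⟨a, ha, b, hb, e, he⟩ := cartan_decomposition_padic p n g
  set σ := Tuple.sort e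
  refine ⟨e ∘ σ, Tuple.monotone_sort e, a * (permGL p σ)⁻¹,
    mul_mem ha (inv_mem (permGL_mem p σ)), permGL p σ * b, mul_mem (permGL_mem p σ) hb, ?_⟩
  have hconj : permGL p σ * ppow p e = ppow p (e ∘ σ) * permGL p σ := by
    refine Units.ext ?_
    ext i j
    rw [Units.val_mul, Units.val_mul, val_ppow, val_ppow, mul_diagonal, diagonal_mul]
    show (1 : Matrix (Fin n) (Fin n) ℚ_[p]) (σ i) j * (p : ℚ_[p]) ^ e j =
      (p : ℚ_[p]) ^ e (σ i) * (1 : Matrix (Fin n) (Fin n) ℚ_[p]) (σ i) j
    rcases eq_or_ne (σ i) j with h | h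
    · rw [← h, one_apply_eq, one_mul, mul_one]
    · rw [one_apply_ne h, zero_mul, mul_zero]
  have hg : g = a * ppow p e * b := Units.ext he
  rw [hg, ← mul_assoc (a * (permGL p σ)⁻¹ * ppow p (e ∘ σ)), mul_assoc (a * (permGL p σ)⁻¹),
    ← hconj, ← mul_assoc (a * (permGL p σ)⁻¹) (permGL p σ), inv_mul_cancel_right]

theorem hasType_ppow (e : Fin n → ℤ) : HasType p (ppow p e) e :=
  ⟨1, one_mem _, 1, one_mem _, by rw [one_mul, mul_one]⟩

variable (n)

/-- `GL_n (ℤ_p)` is open. -/
theorem isOpen_integralGL : IsOpen (integralGL p n : Set (PGL' p n)) := by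
  have e : (integralGL p n : Set (PGL' p n)) =
      (⋂ i, ⋂ j, {g : PGL' p n | (g : Matrix (Fin n) (Fin n) ℚ_[p]) i j ∈ Metric.closedBall 0 1}) ∩
      ⋂ i, ⋂ j, {g : PGL' p n | ((g⁻¹ : PGL' p n) : Matrix (Fin n) (Fin n) ℚ_[p]) i j ∈
        Metric.closedBall 0 1} := by
    ext g
    simp [mem_integralGL_iff]
  rw [e]
  refine (isOpen_iInter_of_finite fun i => isOpen_iInter_of_finite fun j => ?_).inter
    (isOpen_iInter_of_finite fun i => isOpen_iInter_of_finite fun j => ?_)
  · exact (IsUltrametricDist.isOpen_closedBall _ one_ne_zero).preimage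
      (Units.continuous_val.matrix_elem i j)
  · exact (IsUltrametricDist.isOpen_closedBall _ one_ne_zero).preimage
      (Units.continuous_coe_inv.matrix_elem i j)

/-- **Double cosets are finite unions of cosets.** -/
theorem finite_orbit (x : PGL' p n ⧸ integralGL p n) :
    {y | ∃ k ∈ integralGL p n, k • x = y}.Finite := by
  haveI := QuotientGroup.discreteTopology (isOpen_integralGL p n)
  exact ((isCompact_integralGL p n).image (continuous_id.smul continuous_const :
    Continuous fun k : PGL' p n => k • x)).finite_of_discrete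

end FA.Satake

end
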