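import Fermat.Agent.Satake.Algebra
import Fermat.Agent.Satake.Invariants
import Mathlib.Algebra.MonoidAlgebra.Basic
import Mathlib.Analysis.Complex.Order
import Mathlib.Algebra.Order.BigOperators.Group.Finset

/-!
# The spherical Hecke algebra of `GL_n (ℚ_p)` is a polynomial algebra

The double coset operators form a basis.  A product of double coset operators has nonnegative
coefficients, is supported on exponents dominating the sum and meets the sum itself, so the
monomials in the fundamental operators are triangular against that basis.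
-/

set_option autoImplicit false
set_option linter.unusedSectionVars false
set_option linter.style.haveILetI false

noncomputable section

open FA.GelfandPairs
open scoped ComplexOrder

namespace FA.Satake

variable (p : ℕ) [Fact p.Prime] (n : ℕ)

/-- **The spherical Hecke algebra.** -/
abbrev spherical : Subalgebra ℂ (Module.End ℂ (CosetModule (integralGL p n))) :=
  hecke (integralGL p n)

instance instCommRingSpherical : CommRing (spherical p n) :=
  { Algebra.semiringToRing ℂ (A := spherical p n) with
    mul_comm := fun A B => hecke_mul_comm (K := integralGL p n) (θ := glTranspose)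
      (isGelfandInvolution_padic p n).map_mul
      (isGelfandInvolution_padic p n).involutive (isGelfandInvolution_padic p n).map_mem
      (isGelfandInvolution_padic p n).doubleCoset A B }

variable {p n}

/-- The coset of `p ^ e`. -/
def cosetOf (e : Fin n → ℤ) : PGL' p n ⧸ integralGL p n := QuotientGroup.mk (ppow p e)

theorem HasType.mul_right {g : PGL' p n} {e : Fin n → ℤ} (h : HasType p g e) {k : PGL' p n}
    (hk : k ∈ integralGL p n) : HasType p (g * k) e := by
  obtain ⟨a, ha, b, hb, rfl⟩ := h
  exact ⟨a, ha, b * k, mul_mem hb hk, mul_assoc _ _ _⟩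

theorem HasType.mul_left {g : PGL' p n} {e : Fin n → ℤ} (h : HasType p g e) {k : PGL' p n}
    (hk : k ∈ integralGL p n) : HasType p (k * g) e := by
  obtain ⟨a, ha, b, hb, rfl⟩ := h
  exact ⟨k * a, mul_mem hk ha, b, hb, by simp only [mul_assoc]⟩

/-- The exponents of a coset. -/
def typeOf (x : PGL' p n ⧸ integralGL p n) : Fin n → ℤ := (exists_hasType p x.out).choose

theorem monotone_typeOf (x : PGL' p n ⧸ integralGL p n) : Monotone (typeOf x) :=
  (exists_hasType p x.out).choose_spec.1

theorem hasType_out (x : PGL' p n ⧸ integralGL p n) : HasType p x.out (typeOf x) :=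
  (exists_hasType p x.out).choose_spec.2

theorem hasType_typeOf (g : PGL' p n) : HasType p g (typeOf (QuotientGroup.mk g)) := by
  have hk : (QuotientGroup.mk g : PGL' p n ⧸ integralGL p n).out⁻¹ * g ∈ integralGL p n :=
    QuotientGroup.eq.1 (QuotientGroup.out_eq' _)
  simpa using (hasType_out (QuotientGroup.mk g : PGL' p n ⧸ integralGL p n)).mul_right hk

theorem typeOf_eq {g : PGL' p n} {e : Fin n → ℤ} (h : HasType p g e) (he : Monotone e) :
    typeOf (QuotientGroup.mk g : PGL' p n ⧸ integralGL p n) = e :=
  (hasType_typeOf g).unique h (monotone_typeOf _) he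

theorem typeOf_cosetOf {e : Fin n → ℤ} (he : Monotone e) :
    typeOf (cosetOf (p := p) e) = e := typeOf_eq (hasType_ppow p e) he

theorem exists_smul_cosetOf (x : PGL' p n ⧸ integralGL p n) :
    ∃ k ∈ integralGL p n, k • cosetOf (typeOf x) = x := by
  obtain ⟨a, ha, b, hb, e⟩ := hasType_out x
  refine ⟨a, ha, ?_⟩
  conv_rhs => rw [← QuotientGroup.out_eq' x, e, QuotientGroup.mk_mul_of_mem _ hb]
  rfl

theorem typeOf_smul {k : PGL' p n} (hk : k ∈ integralGL p n) (x : PGL' p n ⧸ integralGL p n) :
    typeOf (k • x) = typeOf x := by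
  induction x using QuotientGroup.induction_on with
  | _ g => exact typeOf_eq ((hasType_typeOf g).mul_left hk) (monotone_typeOf _)

theorem kernelFn_eq_cosetOf (A : spherical p n) (x : PGL' p n ⧸ integralGL p n) :
    kernelFn A x = kernelFn A (cosetOf (typeOf x)) := by
  obtain ⟨k, hk, e⟩ := exists_smul_cosetOf x
  conv_lhs => rw [← e]
  exact kernelFn_smul A hk _

theorem finite_typeOf_eq (e : Fin n → ℤ) :
    {x : PGL' p n ⧸ integralGL p n | typeOf x = e}.Finite :=
  (finite_orbit p n (cosetOf e)).subset fun x hx => by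
    obtain ⟨k, hk, h⟩ := exists_smul_cosetOf x
    exact ⟨k, hk, by rwa [show typeOf x = e from hx] at h⟩

/-- The indicator of a double coset. -/
def cosetIndicator (e : Fin n → ℤ) : CosetModule (integralGL p n) :=
  Finsupp.indicator (finite_typeOf_eq e).toFinset fun _ _ => 1

theorem cosetIndicator_apply (e : Fin n → ℤ) (x : PGL' p n ⧸ integralGL p n) :
    cosetIndicator e x = if typeOf x = e then 1 else 0 := by
  classical
  rw [cosetIndicator, Finsupp.indicator_apply]
  simp

/-- **The operator of a double coset.** -/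
def doubleCosetOp (e : Fin n → ℤ) : spherical p n :=
  ofInvariant (cosetIndicator e) fun k hk x => by
    rw [cosetIndicator_apply, cosetIndicator_apply, typeOf_smul hk]

theorem kernelFn_doubleCosetOp (e : Fin n → ℤ) (x : PGL' p n ⧸ integralGL p n) :
    kernelFn (doubleCosetOp e) x = if typeOf x = e then 1 else 0 := by
  rw [doubleCosetOp, kernelFn_ofInvariant, cosetIndicator_apply]

/-- Expansion in the double coset operators. -/
theorem eq_sum_doubleCosetOp (A : spherical p n) :
    A = ∑ e ∈ (kernelFn A).support.image typeOf,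
      kernelFn A (cosetOf e) • doubleCosetOp e := by
  refine kernelFn_injective (Finsupp.ext fun x => ?_)
  rw [kernelFn_sum, Finsupp.coe_finsetSum, Finset.sum_apply]
  simp only [kernelFn_smul_left, Finsupp.smul_apply, kernelFn_doubleCosetOp, smul_eq_mul, mul_ite,
    mul_one, mul_zero, Finset.sum_ite_eq]
  split
  · exact kernelFn_eq_cosetOf A x
  · rename_i h
    by_contra hne
    exact h (Finset.mem_image.2 ⟨x, Finsupp.mem_support_iff.2 hne, rfl⟩)

/-! ### Dominance -/

/-- `h` dominates `e`. -/
def Dominates (e h : Fin n → ℤ) : Prop :=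
  (∀ k ≤ n, pSum e k ≤ pSum h k) ∧ pSum e n = pSum h n

theorem Dominates.refl (e : Fin n → ℤ) : Dominates e e := ⟨fun _ _ => le_rfl, rfl⟩

theorem Dominates.trans {e f h : Fin n → ℤ} (h₁ : Dominates e f) (h₂ : Dominates f h) :
    Dominates e h := ⟨fun k hk => (h₁.1 k hk).trans (h₂.1 k hk), h₁.2.trans h₂.2⟩

theorem Dominates.antisymm {e f : Fin n → ℤ} (h₁ : Dominates e f) (h₂ : Dominates f e) : e = f :=
  ext_of_pSum fun k hk => le_antisymm (h₁.1 k hk) (h₂.1 k hk)

/-- The weight used to choose minimal elements. -/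
def weight (e : Fin n → ℤ) : ℤ := ∑ k ∈ Finset.range (n + 1), pSum e k

theorem Dominates.weight_lt {e h : Fin n → ℤ} (he : Dominates e h) (hne : e ≠ h) :
    weight e < weight h := by
  refine Finset.sum_lt_sum (fun k hk => he.1 k (Nat.lt_succ_iff.1 (Finset.mem_range.1 hk))) ?_
  by_contra hno
  push Not at hno
  exact hne (ext_of_pSum fun k hk =>
    le_antisymm (he.1 k hk) (hno k (Finset.mem_range.2 (Nat.lt_succ_of_le hk))))

theorem finite_dominates (e : Fin n → ℤ) :
    {h : Fin n → ℤ | Monotone h ∧ Dominates e h}.Finite := by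
  rcases Nat.eq_zero_or_pos n with hn | hn
  · subst hn
    exact Set.toFinite _
  set i₀ : Fin n := ⟨0, hn⟩
  refine (Set.Finite.pi fun _ : Fin n =>
    Set.finite_Icc (e i₀) (e i₀ + (pSum e n - n * e i₀))).subset fun h ⟨hm, hd⟩ i _ => ?_
  have h0 : e i₀ ≤ h i₀ := by
    have h1 := hd.1 ((i₀ : ℕ) + 1) i₀.2
    rwa [pSum_succ, pSum_succ, show (i₀ : ℕ) = 0 from rfl, pSum_zero, pSum_zero, zero_add,
      zero_add] at h1
  have hlow : ∀ j, e i₀ ≤ h j := fun j => h0.trans (hm (Nat.zero_le _))
  refine ⟨hlow i, ?_⟩
  have h2 := Finset.single_le_sum (f := fun j => h j - e i₀) (fun j _ => sub_nonneg.2 (hlow j))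
    (Finset.mem_univ i)
  have hS : pSum h n = ∑ j, h j := by
    rw [pSum_eq_sum h le_rfl]
    simp
  rw [Finset.sum_sub_distrib, Finset.sum_const, Finset.card_univ, Fintype.card_fin, nsmul_eq_mul,
    ← hS, ← hd.2] at h2
  linarith

/-- An operator with top term at `e`. -/
structure IsTop (e : Fin n → ℤ) (A : spherical p n) : Prop where
  monotone : Monotone e
  nonneg : ∀ x, 0 ≤ kernelFn A x
  dominates : ∀ x, kernelFn A x ≠ 0 → Dominates e (typeOf x)
  ne_zero : kernelFn A (cosetOf e) ≠ 0

theorem isTop_doubleCosetOp {e : Fin n → ℤ} (he : Monotone e) :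
    IsTop e (doubleCosetOp (p := p) e) where
  monotone := he
  nonneg x := by rw [kernelFn_doubleCosetOp]; split <;> norm_num
  dominates x hx := by
    rw [kernelFn_doubleCosetOp] at hx
    split at hx
    · rename_i h; exact h ▸ Dominates.refl e
    · exact absurd rfl hx
  ne_zero := by rw [kernelFn_doubleCosetOp, if_pos (typeOf_cosetOf he)]; exact one_ne_zero

theorem typeOf_mk_one :
    typeOf (QuotientGroup.mk (1 : PGL' p n) : PGL' p n ⧸ integralGL p n) = 0 :=
  typeOf_eq (by simpa [ppow_zero] using hasType_ppow p (0 : Fin n → ℤ)) monotone_const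

theorem doubleCosetOp_zero : doubleCosetOp (p := p) (0 : Fin n → ℤ) = 1 := by
  classical
  refine kernelFn_injective (Finsupp.ext fun x => ?_)
  rw [kernelFn_doubleCosetOp, kernelFn_one, Finsupp.single_apply]
  refine if_congr ⟨fun h => ?_, fun h => h ▸ typeOf_mk_one⟩ rfl rfl
  obtain ⟨k, hk, e⟩ := exists_smul_cosetOf x
  rw [h, cosetOf, ppow_zero] at e
  rw [← e, MulAction.Quotient.smul_mk, smul_eq_mul, mul_one]
  exact QuotientGroup.eq.2 (by simpa using hk)

theorem isTop_one : IsTop (0 : Fin n → ℤ) (1 : spherical p n) :=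
  doubleCosetOp_zero (p := p) (n := n) ▸ isTop_doubleCosetOp monotone_const

/-- **Top terms multiply.** -/
theorem IsTop.mul {e f : Fin n → ℤ} {A B : spherical p n} (hA : IsTop e A) (hB : IsTop f B) :
    IsTop (e + f) (A * B) := by
  have hterm : ∀ x y, 0 ≤ kernelFn B y * kernelFn A (y.out⁻¹ • x) := fun x y =>
    mul_nonneg (hB.nonneg y) (hA.nonneg _)
  refine ⟨hA.monotone.add hB.monotone, fun x => ?_, fun x hx => ?_, ?_⟩
  · rw [kernelFn_mul]
    exact finsum_nonneg (hterm x)
  · rw [kernelFn_mul] at hx
    obtain ⟨y, hy⟩ : ∃ y, kernelFn B y * kernelFn A (y.out⁻¹ • x) ≠ 0 := by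
      by_contra hno
      push Not at hno
      exact hx (finsum_eq_zero_of_forall_eq_zero hno)
    have hBy := hB.dominates y (left_ne_zero_of_mul hy)
    induction x using QuotientGroup.induction_on with
    | _ g =>
    have hAz := hA.dominates _ (right_ne_zero_of_mul hy)
    rw [MulAction.Quotient.smul_mk, smul_eq_mul] at hAz
    have hm := HasType.mul_le (hasType_out y) (hasType_typeOf (y.out⁻¹ * g))
      (c := typeOf (QuotientGroup.mk g : PGL' p n ⧸ integralGL p n))
      (by rw [mul_inv_cancel_left]; exact hasType_typeOf g)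
      (monotone_typeOf _) (monotone_typeOf _) (monotone_typeOf _)
    refine ⟨fun k hk => ?_, ?_⟩
    · rw [pSum_add, add_comm]
      exact (add_le_add (hBy.1 k hk) (hAz.1 k hk)).trans (hm.1 k hk)
    · rw [pSum_add, add_comm, hBy.2, hAz.2]
      exact hm.2
  · rw [kernelFn_mul, finsum_eq_finsetSum_of_support_subset (s := (kernelFn B).support) _
      fun y hy => by
        rw [Finset.mem_coe, Finsupp.mem_support_iff]
        exact left_ne_zero_of_mul hy]
    refine ne_of_gt ((lt_of_le_of_ne (hterm _ (cosetOf f)) (Ne.symm ?_)).trans_le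
      (Finset.single_le_sum (fun y _ => hterm _ y) (Finsupp.mem_support_iff.2 hB.ne_zero)))
    refine mul_ne_zero hB.ne_zero ?_
    have hk : (cosetOf (p := p) f).out⁻¹ * ppow p f ∈ integralGL p n :=
      QuotientGroup.eq.1 (QuotientGroup.out_eq' _)
    have e1 : (cosetOf (p := p) f).out⁻¹ • cosetOf (p := p) (e + f) =
        ((cosetOf (p := p) f).out⁻¹ * ppow p f) • cosetOf e := by
      show (QuotientGroup.mk (_ * ppow p (e + f)) : PGL' p n ⧸ integralGL p n) =
        QuotientGroup.mk (_ * ppow p e)
      rw [mul_assoc, ← ppow_add, add_comm e f]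
    rw [e1, kernelFn_smul A hk]
    exact hA.ne_zero

theorem IsTop.pow {e : Fin n → ℤ} {A : spherical p n} (hA : IsTop e A) (m : ℕ) :
    IsTop (m • e) (A ^ m) := by
  induction m with
  | zero => rw [zero_smul, pow_zero]; exact isTop_one
  | succ m ih => rw [succ_nsmul, pow_succ]; exact ih.mul hA

theorem IsTop.prod {ι : Type*} {s : Finset ι} {e : ι → Fin n → ℤ} {A : ι → spherical p n}
    (h : ∀ i ∈ s, IsTop (e i) (A i)) : IsTop (∑ i ∈ s, e i) (∏ i ∈ s, A i) := by
  classical
  induction s using Finset.induction with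
  | empty => simpa using isTop_one
  | insert i s hi ih =>
    rw [Finset.sum_insert hi, Finset.prod_insert hi]
    exact (h i (Finset.mem_insert_self i s)).mul (ih fun j hj => h j (Finset.mem_insert_of_mem hj))

/-! ### Constant exponents -/

theorem typeOf_eq_const (c : ℤ) (x : PGL' p n ⧸ integralGL p n) :
    typeOf x = (fun _ => c) ↔ x = cosetOf fun _ => c := by
  refine ⟨fun h => ?_, fun h => h ▸ typeOf_cosetOf monotone_const⟩
  obtain ⟨k, hk, e⟩ := exists_smul_cosetOf x
  rw [h, cosetOf, MulAction.Quotient.smul_mk, smul_eq_mul] at e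
  rw [← e, cosetOf, show k * ppow p (fun _ : Fin n => c) = ppow p (fun _ : Fin n => c) * k from
    Units.ext (by
      rw [Units.val_mul, Units.val_mul, val_ppow]
      ext i j
      rw [Matrix.mul_diagonal, Matrix.diagonal_mul, mul_comm]), QuotientGroup.mk_mul_of_mem _ hk]

theorem doubleCosetOp_const_mul (a b : ℤ) :
    doubleCosetOp (p := p) (fun _ : Fin n => a + b) =
      doubleCosetOp (p := p) (fun _ : Fin n => a) * doubleCosetOp fun _ => b := by
  classical
  refine kernelFn_injective (Finsupp.ext fun x => ?_)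
  rw [kernelFn_mul, finsum_eq_single _ (cosetOf (p := p) fun _ : Fin n => b) fun y hy => by
    rw [kernelFn_doubleCosetOp, if_neg (mt (typeOf_eq_const b y).1 hy), zero_mul]]
  rw [kernelFn_doubleCosetOp, kernelFn_doubleCosetOp, kernelFn_doubleCosetOp,
    if_pos (typeOf_cosetOf monotone_const), one_mul]
  simp only [typeOf_eq_const]
  refine if_congr ?_ rfl rfl
  set o := (cosetOf (p := p) fun _ : Fin n => b).out
  have ho : ∀ z : PGL' p n ⧸ integralGL p n, o⁻¹ • z = cosetOf (fun _ : Fin n => a) ↔
      z = cosetOf (fun _ : Fin n => a + b) := fun z => by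
    rw [inv_smul_eq_iff]
    have hk : (ppow p fun _ : Fin n => b)⁻¹ * o ∈ integralGL p n :=
      QuotientGroup.eq.1 (QuotientGroup.out_eq' _).symm
    have e : o • cosetOf (p := p) (fun _ : Fin n => a) = cosetOf fun _ => a + b := by
      rw [cosetOf, cosetOf, MulAction.Quotient.smul_mk, smul_eq_mul,
        show (fun _ : Fin n => a + b) = (fun _ => b) + fun _ => a from funext fun _ => add_comm a b,
        ppow_add]
      refine QuotientGroup.eq.2 ?_
      have hc : ∀ g : PGL' p n, g * ppow p (fun _ : Fin n => a) = ppow p (fun _ => a) * g := fun g =>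
        Units.ext (by
          rw [Units.val_mul, Units.val_mul, val_ppow]
          ext i j
          rw [Matrix.mul_diagonal, Matrix.diagonal_mul, mul_comm])
      rw [hc o, hc (ppow p fun _ : Fin n => b), mul_inv_rev, mul_assoc, inv_mul_cancel_left]
      simpa using inv_mem hk
    rw [e]
  exact (ho x).symm

/-! ### The monomials -/

variable {m : ℕ}

/-- The fundamental exponents. -/
def fundExp (j : Fin (m + 1)) : Fin (m + 1) → ℤ := fun i => if j ≤ i then 1 else 0

theorem monotone_fundExp (j : Fin (m + 1)) : Monotone (fundExp j) := fun a b hab => by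
  rw [fundExp, fundExp]
  split_ifs with h₁ h₂ <;> first | exact le_rfl | exact zero_le_one | exact absurd (h₁.trans hab) h₂

/-- Monomial exponents to exponent vectors. -/
def toExp (q : (Fin m → ℕ) × ℤ) : Fin (m + 1) → ℤ :=
  (fun _ => q.2) + ∑ j, q.1 j • fundExp j.succ

theorem toExp_zero (q : (Fin m → ℕ) × ℤ) : toExp q 0 = q.2 := by
  simp [toExp, fundExp]

theorem toExp_succ (q : (Fin m → ℕ) × ℤ) (i : Fin m) :
    toExp q i.succ = toExp q i.castSucc + q.1 i := by
  have h : ∀ j : Fin m, fundExp j.succ i.succ = fundExp j.succ i.castSucc + if j = i then 1 else 0 :=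
    fun j => by
    rcases lt_trichotomy j i with h | h | h
    · simp [fundExp, Fin.le_def, h.ne, Nat.succ_le_of_lt (Fin.lt_def.1 h),
        (Fin.lt_def.1 h).le]
    · simp [fundExp, Fin.le_def, h]
    · have h' := Fin.lt_def.1 h
      simp [fundExp, Fin.le_def, h.ne', not_le.2 h', not_le.2 (h'.trans (Nat.lt_succ_self _))]
  simp only [toExp, Pi.add_apply, Finset.sum_apply, Pi.smul_apply, h, smul_add,
    Finset.sum_add_distrib, smul_ite, smul_zero, Finset.sum_ite_eq', Finset.mem_univ, if_true,
    add_assoc]
  simp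

theorem monotone_toExp (q : (Fin m → ℕ) × ℤ) : Monotone (toExp q) :=
  Fin.monotone_iff_le_succ.2 fun i => by
    rw [toExp_succ]
    exact le_add_of_nonneg_right (Int.natCast_nonneg _)

/-- Exponent vectors to monomial exponents. -/
def fromExp (e : Fin (m + 1) → ℤ) : (Fin m → ℕ) × ℤ :=
  (fun j => (e j.succ - e j.castSucc).toNat, e 0)

theorem toExp_fromExp {e : Fin (m + 1) → ℤ} (he : Monotone e) : toExp (fromExp e) = e :=
  funext fun i => by
    induction i using Fin.induction with
    | zero => exact toExp_zero _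
    | succ i ih =>
      rw [toExp_succ, ih, fromExp, Int.toNat_of_nonneg (sub_nonneg.2 (he (Fin.castSucc_le_succ i))),
        add_sub_cancel]

theorem fromExp_toExp (q : (Fin m → ℕ) × ℤ) : fromExp (toExp q) = q :=
  Prod.ext (funext fun j => by simp [fromExp, toExp_succ]) (toExp_zero q)

/-- The monomial in the fundamental operators. -/
def monomialHom : Multiplicative ((Fin m → ℕ) × ℤ) →* spherical p (m + 1) where
  toFun q := doubleCosetOp (fun _ : Fin (m + 1) => (Multiplicative.toAdd q).2) *
    ∏ j, doubleCosetOp (fundExp j.succ) ^ (Multiplicative.toAdd q).1 j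
  map_one' := by
    simp only [toAdd_one, Prod.fst_zero, Prod.snd_zero, Pi.zero_apply, pow_zero,
      Finset.prod_const_one, mul_one]
    exact doubleCosetOp_zero
  map_mul' q r := by
    simp only [toAdd_mul, Prod.fst_add, Prod.snd_add, Pi.add_apply, pow_add, Finset.prod_mul_distrib,
      doubleCosetOp_const_mul]
    ring

theorem isTop_monomialHom (q : (Fin m → ℕ) × ℤ) :
    IsTop (toExp q) (monomialHom (p := p) (Multiplicative.ofAdd q)) :=
  (isTop_doubleCosetOp monotone_const).mul
    (IsTop.prod fun j _ => (isTop_doubleCosetOp (monotone_fundExp j.succ)).pow (q.1 j))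

/-- The map from the polynomial algebra. -/
def satakeMap : AddMonoidAlgebra ℂ ((Fin m → ℕ) × ℤ) →ₐ[ℂ] spherical p (m + 1) :=
  AddMonoidAlgebra.lift ℂ (spherical p (m + 1)) ((Fin m → ℕ) × ℤ) monomialHom

theorem satakeMap_single (q : (Fin m → ℕ) × ℤ) (c : ℂ) :
    satakeMap (p := p) (AddMonoidAlgebra.single q c) =
      c • monomialHom (Multiplicative.ofAdd q) :=
  AddMonoidAlgebra.lift_single ..

theorem satakeMap_apply (f : AddMonoidAlgebra ℂ ((Fin m → ℕ) × ℤ)) :
    satakeMap (p := p) f =
      ∑ q ∈ f.coeff.support, f.coeff q • monomialHom (Multiplicative.ofAdd q) :=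
  AddMonoidAlgebra.lift_apply ..

theorem satakeMap_injective : Function.Injective (satakeMap (p := p) (m := m)) := by
  refine (injective_iff_map_eq_zero _).2 fun f hf => ?_
  by_contra hne
  have hne' : f.coeff.support.Nonempty := Finsupp.support_nonempty_iff.2 fun h => hne
    (AddMonoidAlgebra.coeff_injective (h.trans AddMonoidAlgebra.coeff_zero.symm))
  obtain ⟨q₀, hq₀, hmin⟩ := f.coeff.support.exists_min_image (fun q => weight (toExp q)) hne'
  have h := congrArg (fun A => kernelFn A (cosetOf (p := p) (toExp q₀))) hf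
  simp only [satakeMap_apply, kernelFn_sum, Finsupp.coe_finsetSum, Finset.sum_apply,
    kernelFn_smul_left, Finsupp.smul_apply] at h
  rw [Finset.sum_eq_single q₀ (fun q hq hqne => ?_) (fun h => absurd hq₀ h)] at h
  · exact mul_ne_zero (Finsupp.mem_support_iff.1 hq₀) (isTop_monomialHom q₀).ne_zero h
  · by_contra hne2
    have hd := (isTop_monomialHom (p := p) q).dominates _ (right_ne_zero_of_smul hne2)
    rw [typeOf_cosetOf (monotone_toExp q₀)] at hd
    exact not_lt.2 (hmin q hq) (hd.weight_lt fun e => hqne (by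
      rw [← fromExp_toExp q, e, fromExp_toExp]))

theorem doubleCosetOp_mem_range (e : Fin (m + 1) → ℤ) (he : Monotone e) :
    doubleCosetOp (p := p) e ∈ (satakeMap (p := p) (m := m)).range := by
  generalize hN : (finite_dominates e).toFinset.card = N
  induction N using Nat.strong_induction_on generalizing e with
  | _ N ih =>
  set A := monomialHom (p := p) (Multiplicative.ofAdd (fromExp e))
  have htop : IsTop e A := by
    have h := isTop_monomialHom (p := p) (fromExp e)
    rwa [toExp_fromExp he] at h
  set S := (kernelFn A).support.image typeOf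
  have hA : A ∈ (satakeMap (p := p) (m := m)).range :=
    ⟨AddMonoidAlgebra.single (fromExp e) 1, (satakeMap_single _ 1).trans (one_smul _ _)⟩
  have heS : e ∈ S := Finset.mem_image.2
    ⟨cosetOf e, Finsupp.mem_support_iff.2 htop.ne_zero, typeOf_cosetOf he⟩
  have hsum := eq_sum_doubleCosetOp A
  rw [← Finset.add_sum_erase S _ heS] at hsum
  have hrest : ∀ f ∈ S.erase e,
      kernelFn A (cosetOf f) • doubleCosetOp f ∈ (satakeMap (p := p) (m := m)).range := fun f hf => by
    obtain ⟨hfe, hfS⟩ := Finset.mem_erase.1 hf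
    obtain ⟨x, hx, rfl⟩ := Finset.mem_image.1 hfS
    refine Subalgebra.smul_mem _ (ih _ ?_ _ (monotone_typeOf x) rfl) _
    have hd := htop.dominates x (Finsupp.mem_support_iff.1 hx)
    rw [← hN]
    refine Finset.card_lt_card (Finset.ssubset_iff_of_subset (fun h hh => ?_) |>.2 ⟨e, ?_, ?_⟩)
    · rw [Set.Finite.mem_toFinset] at hh ⊢
      exact ⟨hh.1, hd.trans hh.2⟩
    · rw [Set.Finite.mem_toFinset]
      exact ⟨he, Dominates.refl e⟩
    · rw [Set.Finite.mem_toFinset]
      exact fun hh => hfe (hh.2.antisymm hd)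
  have hmain : kernelFn A (cosetOf e) • doubleCosetOp e ∈ (satakeMap (p := p) (m := m)).range := by
    have h2 := Subalgebra.sub_mem _ hA (Subalgebra.sum_mem _ hrest)
    rwa [sub_eq_of_eq_add hsum] at h2
  have h3 := Subalgebra.smul_mem _ hmain (kernelFn A (cosetOf e))⁻¹
  rwa [inv_smul_smul₀ htop.ne_zero] at h3

theorem satakeMap_surjective : Function.Surjective (satakeMap (p := p) (m := m)) := fun A => by
  suffices h : A ∈ (satakeMap (p := p) (m := m)).range from h
  rw [eq_sum_doubleCosetOp A]
  refine Subalgebra.sum_mem _ fun e he => ?_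
  obtain ⟨x, -, rfl⟩ := Finset.mem_image.1 he
  exact Subalgebra.smul_mem _ (doubleCosetOp_mem_range _ (monotone_typeOf x)) _

/-- **The structure of the spherical Hecke algebra.** -/
def satakeEquiv : AddMonoidAlgebra ℂ ((Fin m → ℕ) × ℤ) ≃ₐ[ℂ] spherical p (m + 1) :=
  AlgEquiv.ofBijective satakeMap ⟨satakeMap_injective, satakeMap_surjective⟩

end FA.Satake

end
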